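import Fermat.Agent.S14.FirstIneq.Ord

set_option autoImplicit false
set_option linter.unusedSectionVars false

namespace Fermat.Agent.S14.FirstIneq

open NumberField IsDedekindDomain UniqueFactorizationMonoid
open scoped Pointwise

universe u v

variable {p : ℕ} [Fact p.Prime]
variable (F : Type u) (N : Type v) [Field F] [NumberField F] [Field N] [NumberField N]
  [Algebra F N] [IsGalois F N]

/-! ### Galois equivariance of the valuation (tag `ordrel_aux_smul_`) -/

/-- The action of `τ` on the integers of `N` is compatible with the inclusion into `N`. -/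
theorem ordrel_aux_smul_coe (τ : N ≃ₐ[F] N) (a : 𝓞 N) :
    algebraMap (𝓞 N) N (τ • a) = τ (algebraMap (𝓞 N) N a) := rfl

/-- The action of `τ` on the integers of `N` preserves being nonzero. -/
theorem ordrel_aux_smul_ne_zero (τ : N ≃ₐ[F] N) {y : 𝓞 N} (hy : y ≠ 0) : τ • y ≠ 0 := by
  intro h
  apply hy
  have h2 : τ⁻¹ • (τ • y) = τ⁻¹ • (0 : 𝓞 N) := by rw [h]
  rwa [inv_smul_smul, smul_zero] at h2

/-- The action of `τ` on principal ideals. -/
theorem ordrel_aux_smul_span (τ : N ≃ₐ[F] N) (y : 𝓞 N) :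
    τ • (Ideal.span {y} : Ideal (𝓞 N)) = Ideal.span {τ • y} := by
  rw [Ideal.smul_closure, Set.smul_set_singleton]

/-- The action of `τ` on ideals preserves being nonzero. -/
theorem ordrel_aux_smul_ne_bot (τ : N ≃ₐ[F] N) {Q : Ideal (𝓞 N)} (hQ0 : Q ≠ ⊥) :
    τ • Q ≠ ⊥ := by
  intro h
  apply hQ0
  have h2 : τ⁻¹ • (τ • Q) = τ⁻¹ • (⊥ : Ideal (𝓞 N)) := by rw [h]
  rwa [inv_smul_smul, Ideal.smul_bot] at h2

/-- The multiplicity of `τ • Q` in `(τ • y)` is the multiplicity of `Q` in `(y)`. -/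
theorem ordrel_aux_smul_count (τ : N ≃ₐ[F] N) {Q : Ideal (𝓞 N)} (hQ : Q.IsPrime) (hQ0 : Q ≠ ⊥)
    {y : 𝓞 N} (hy : y ≠ 0) :
    (normalizedFactors (Ideal.span {τ • y} : Ideal (𝓞 N))).count (τ • Q) =
      (normalizedFactors (Ideal.span {y} : Ideal (𝓞 N))).count Q := by
  classical
  have hτQ : (τ • Q).IsPrime := (Ideal.IsPrime.smul_iff τ).mpr hQ
  have hτQ0 : τ • Q ≠ ⊥ := ordrel_aux_smul_ne_bot F N τ hQ0
  have hτy : τ • y ≠ 0 := ordrel_aux_smul_ne_zero F N τ hy
  have hsy : (Ideal.span {y} : Ideal (𝓞 N)) ≠ 0 := by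
    rw [Ne, Ideal.zero_eq_bot, Ideal.span_singleton_eq_bot]
    exact hy
  have hsτy : (Ideal.span {τ • y} : Ideal (𝓞 N)) ≠ 0 := by
    rw [Ne, Ideal.zero_eq_bot, Ideal.span_singleton_eq_bot]
    exact hτy
  have hirr : Irreducible Q := (Ideal.prime_of_isPrime hQ0 hQ).irreducible
  have hirrτ : Irreducible (τ • Q) := (Ideal.prime_of_isPrime hτQ0 hτQ).irreducible
  have hmul : emultiplicity (τ • Q) (τ • (Ideal.span {y} : Ideal (𝓞 N))) =
      emultiplicity Q (Ideal.span {y} : Ideal (𝓞 N)) :=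
    emultiplicity_map_eq (MulDistribMulAction.toMulEquiv (Ideal (𝓞 N)) τ)
  rw [ordrel_aux_smul_span, emultiplicity_eq_count_normalizedFactors hirrτ hsτy,
    emultiplicity_eq_count_normalizedFactors hirr hsy, normalize_eq, normalize_eq] at hmul
  exact_mod_cast hmul

/-- Galois equivariance of the valuation, for nonzero integers. -/
theorem ordrel_aux_smul_int (τ : N ≃ₐ[F] N) {Q : Ideal (𝓞 N)} (hQ : Q.IsPrime) (hQ0 : Q ≠ ⊥)
    {y : 𝓞 N} (hy : y ≠ 0) :
    ord N (τ • Q) (algebraMap (𝓞 N) N (τ • y)) = ord N Q (algebraMap (𝓞 N) N y) := by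
  classical
  have hτQ : (τ • Q).IsPrime := (Ideal.IsPrime.smul_iff τ).mpr hQ
  have hτQ0 : τ • Q ≠ ⊥ := ordrel_aux_smul_ne_bot F N τ hQ0
  have hτy : τ • y ≠ 0 := ordrel_aux_smul_ne_zero F N τ hy
  rw [ord_algebraMap N hτQ hτQ0 hτy, ord_algebraMap N hQ hQ0 hy,
    ordrel_aux_smul_count F N τ hQ hQ0 hy]

/-- Galois equivariance of the valuation. -/
theorem ordrel_aux_smul_main (τ : N ≃ₐ[F] N) (Q : Ideal (𝓞 N)) (x : N) :
    ord N (τ • Q) (τ x) = ord N Q x := by
  by_cases h : Q.IsPrime ∧ Q ≠ ⊥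
  · obtain ⟨hQ, hQ0⟩ := h
    by_cases hx : x = 0
    · subst hx
      rw [map_zero, ord_zero, ord_zero]
    · obtain ⟨a, b, hb, rfl⟩ := IsFractionRing.div_surjective (A := 𝓞 N) x
      have hb0 : b ≠ 0 := nonZeroDivisors.ne_zero hb
      have hbN : algebraMap (𝓞 N) N b ≠ 0 := by
        intro h0
        exact hb0 ((FaithfulSMul.algebraMap_injective (𝓞 N) N) (by rw [h0, map_zero]))
      have haN : algebraMap (𝓞 N) N a ≠ 0 := by
        intro h0
        apply hx
        rw [h0, zero_div]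
      have ha0 : a ≠ 0 := by
        rintro rfl
        exact haN (map_zero _)
      have hτa : τ (algebraMap (𝓞 N) N a) ≠ 0 := by
        intro h0
        exact haN ((map_eq_zero τ).mp h0)
      have hτb : τ (algebraMap (𝓞 N) N b) ≠ 0 := by
        intro h0
        exact hbN ((map_eq_zero τ).mp h0)
      rw [map_div₀, ord_div N (τ • Q) hτa hτb, ord_div N Q haN hbN,
        ← ordrel_aux_smul_coe F N τ a, ← ordrel_aux_smul_coe F N τ b,
        ordrel_aux_smul_int F N τ hQ hQ0 ha0, ordrel_aux_smul_int F N τ hQ hQ0 hb0]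
  · have h' : ¬ ((τ • Q).IsPrime ∧ τ • Q ≠ ⊥) := by
      rintro ⟨h1, h2⟩
      refine h ⟨(Ideal.IsPrime.smul_iff τ).mp h1, ?_⟩
      rintro rfl
      exact h2 (Ideal.smul_bot τ)
    unfold ord
    rw [dif_neg h, dif_neg h']

end Fermat.Agent.S14.FirstIneq
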