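import Fermat.Agent.S14.FirstIneq.Ord

set_option autoImplicit false
set_option linter.unusedSectionVars false

namespace Fermat.Agent.S14.FirstIneq

open NumberField IsDedekindDomain UniqueFactorizationMonoid
open scoped Pointwise

universe u v

variable {p : ℕ} [Fact p.Prime]
variable (F : Type u) (N : Type v) [Field F] [NumberField F] [Field N] [NumberField N]
  [Algebra F N] [IsGalois F N]

/-!
# S14 / FirstIneq / OrdRel / Resid

In a Galois extension `N/F` of number fields of prime degree `p`, at a ramified prime `Q` of `N`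
the residue field does not grow: every integer of `N` is congruent modulo `Q` to an integer
of `F`.  (Inertia group `= ` whole group, hence `g * p * f = p` forces `f = 1`.)
-/

/-- In prime degree, a nontrivial inertia group is the whole Galois group. -/
theorem ordrel_aux_res_inertia_eq_top (hdeg : Module.finrank F N = p) {Q : Ideal (𝓞 N)}
    (hram : ¬ UnramifiedAt F N Q) : Q.inertia (N ≃ₐ[F] N) = ⊤ := by
  have hcard : Nat.card (N ≃ₐ[F] N) = p := by
    rw [IsGalois.card_aut_eq_finrank, hdeg]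
  have : Fact (Nat.card (N ≃ₐ[F] N)).Prime := by
    rw [hcard]
    infer_instance
  rcases Subgroup.eq_bot_or_eq_top_of_prime_card (Q.inertia (N ≃ₐ[F] N)) with h | h
  · exact absurd h hram
  · exact h

/-- In prime degree, the inertia degree at a ramified prime is `1`. -/
theorem ordrel_aux_res_inertiaDeg_eq_one (hdeg : Module.finrank F N = p) {Q : Ideal (𝓞 N)}
    (hQ : Q.IsPrime) (hram : ¬ UnramifiedAt F N Q) :
    Q.inertiaDeg (𝓞 F) = 1 := by
  have hp : p.Prime := Fact.out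
  have hcard : Nat.card (N ≃ₐ[F] N) = p := by
    rw [IsGalois.card_aut_eq_finrank, hdeg]
  have hin := ordrel_aux_res_inertia_eq_top F N hdeg hram
  have hcardI : Nat.card (Q.inertia (N ≃ₐ[F] N)) = p := by
    rw [hin, Subgroup.card_top, hcard]
  have : Q.LiesOver (Q.under (𝓞 F)) := ⟨rfl⟩
  have key := Ideal.ncard_primesOver_mul_card_inertia_mul_finrank (G := N ≃ₐ[F] N)
    (Q.under (𝓞 F)) Q
  rw [hcardI, hcard] at key
  -- `g * p * f = p`
  have hdvd : p * Q.inertiaDeg (𝓞 F) ∣ p := by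
    refine ⟨((Q.under (𝓞 F)).primesOver (𝓞 N)).ncard, ?_⟩
    conv_lhs => rw [← key]
    ring
  have h1 : Q.inertiaDeg (𝓞 F) ∣ 1 := by
    have h2 : p * Q.inertiaDeg (𝓞 F) ∣ p * 1 := by simpa using hdvd
    exact (Nat.mul_dvd_mul_iff_left hp.pos).mp h2
  exact Nat.dvd_one.mp h1

/-- In prime degree: at a ramified prime `Q` the residue field does not grow:
every integer of `N` is congruent modulo `Q` to an integer of `F`. -/
theorem ordrel_aux_res_exists_sub_mem (hdeg : Module.finrank F N = p) {Q : Ideal (𝓞 N)}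
    (hQ : Q.IsPrime) (hQ0 : Q ≠ ⊥) (hram : ¬ UnramifiedAt F N Q) (a : 𝓞 N) :
    ∃ b : 𝓞 F, a - algebraMap (𝓞 F) (𝓞 N) b ∈ Q := by
  have hf := ordrel_aux_res_inertiaDeg_eq_one F N hdeg hQ hram
  have : Q.LiesOver (Q.under (𝓞 F)) := ⟨rfl⟩
  have hv0 : Q.under (𝓞 F) ≠ ⊥ := Ideal.under_ne_bot (𝓞 F) hQ0
  have hvmax : (Q.under (𝓞 F)).IsMaximal := Ideal.IsPrime.isMaximal inferInstance hv0
  have hQmax : Q.IsMaximal := Ideal.IsPrime.isMaximal hQ hQ0
  rw [Ideal.inertiaDeg_eq_of_isMaximal (Q.under (𝓞 F)) Q] at hf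
  let _ : Field (𝓞 F ⧸ Q.under (𝓞 F)) := Ideal.Quotient.field _
  have hbij := (Algebra.finrank_eq_one_iff_bijective_algebraMap
    (F := 𝓞 F ⧸ Q.under (𝓞 F)) (E := 𝓞 N ⧸ Q)).mp hf
  obtain ⟨c, hc⟩ := hbij.2 (Ideal.Quotient.mk Q a)
  obtain ⟨b, rfl⟩ := Ideal.Quotient.mk_surjective c
  refine ⟨b, ?_⟩
  rw [← Ideal.Quotient.eq, ← hc]
  rfl

end Fermat.Agent.S14.FirstIneq
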